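import Mathlib
import Fermat.Agent.S24.JDict

set_option autoImplicit false

/-!
# S16, stream [C]: the integral Miller basis of level one, in "Sturm mod `J`" form

For a level-one modular form `f` of weight `k` and ANY additive subgroup `J` of `ℂ`:
if the `q`-expansion coefficients `a_n(f)`, `n ≤ k / 12`, lie in `J`, then all of them do
(`s16s_miller`).  Proof: `Δ`-division, with the integral forms `E₄ ^ a * E₆ ^ b`.
-/

namespace Fermat.Agent.S16

open UpperHalfPlane ModularForm ModularFormClass MatrixGroups EisensteinSeries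

noncomputable section

/-- The integral `q`-expansion of `E₆`. -/
def s16s_e6 : PowerSeries ℤ :=
  PowerSeries.mk fun n => if n = 0 then 1 else -504 * ∑ d ∈ n.divisors, (d : ℤ) ^ 5

theorem s16s_constantCoeff_e6 : PowerSeries.constantCoeff s16s_e6 = 1 := by
  rw [← PowerSeries.coeff_zero_eq_constantCoeff]
  simp [s16s_e6]

theorem s16s_qExpansion_E6 :
    qExpansion 1 E₆ = PowerSeries.map (Int.castRingHom ℂ) s16s_e6 := by
  ext m
  have h := E_qExpansion_coeff (k := 6) (by norm_num) ⟨3, rfl⟩ m
  rw [show (E₆ : ℍ → ℂ) = E (k := 6) (by norm_num) from rfl, h]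
  rw [PowerSeries.coeff_map, s16s_e6, PowerSeries.coeff_mk]
  split_ifs with hm
  · simp
  · have hb : (bernoulli 6 : ℂ) = 1 / 42 := by
      rw [show bernoulli 6 = 1 / 42 by decide +kernel]
      push_cast; ring
    rw [hb]
    simp only [ArithmeticFunction.sigma_apply, Nat.cast_ofNat, eq_intCast, Int.cast_mul,
      Int.cast_ofNat, Int.cast_sum, Int.cast_pow, Int.cast_natCast, Nat.cast_sum, Nat.cast_pow,
      Int.cast_neg]
    norm_num


/-- Integral forms `E₄ ^ a * E₆ ^ b` of every even weight `≠ 2`, with constant term `1`. -/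
theorem s16s_exists_base : ∀ k : ℕ, Even k → k ≠ 2 →
    ∃ (B : ModularForm 𝒮ℒ (k : ℤ)) (b : PowerSeries ℤ),
      qExpansion 1 B = PowerSeries.map (Int.castRingHom ℂ) b ∧
        PowerSeries.constantCoeff b = 1 := by
  intro k
  induction k using Nat.strong_induction_on with | _ k ih =>
  intro hev hk2
  rcases Nat.eq_zero_or_pos k with rfl | hpos
  · refine ⟨ModularForm.mcast (by norm_num) (1 : ModularForm 𝒮ℒ 0), 1, ?_, by simp⟩
    rw [ModularForm.qExpansion_mcast, ModularForm.qExpansion_one, map_one]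
  rcases eq_or_ne k 6 with rfl | hk6
  · refine ⟨ModularForm.mcast (by norm_num) E₆, s16s_e6, ?_, s16s_constantCoeff_e6⟩
    rw [ModularForm.qExpansion_mcast, s16s_qExpansion_E6]
  have hk4 : 4 ≤ k := by
    obtain ⟨m, rfl⟩ := hev
    omega
  have hev' : Even (k - 4) := by
    obtain ⟨m, rfl⟩ := hev
    exact ⟨m - 2, by omega⟩
  obtain ⟨B', b', hB', hb'⟩ := ih (k - 4) (by omega) hev' (by omega)
  refine ⟨ModularForm.mcast (by omega) (E₄.mul B'), ModularCurve.eisenstein4 * b', ?_, ?_⟩
  · rw [ModularForm.qExpansion_mcast,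
      ModularForm.qExpansion_mul one_pos one_mem_strictPeriods_SL, hB',
      Fermat.Agent.S24.qExpansion_E4_eq, map_mul]
  · rw [map_mul, ModularCurve.constantCoeff_eisenstein4, hb', one_mul]

/-- Coefficients of `(integral series) * q` are integer combinations of coefficients of `q`. -/
theorem s16s_coeff_map_mul_mem (J : AddSubgroup ℂ) (p : PowerSeries ℤ) (q : PowerSeries ℂ)
    (n : ℕ) (h : ∀ j, j ≤ n → q.coeff j ∈ J) :
    ((PowerSeries.map (Int.castRingHom ℂ) p) * q).coeff n ∈ J := by
  rw [PowerSeries.coeff_mul]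
  refine J.sum_mem fun x hx => ?_
  rw [PowerSeries.coeff_map, eq_intCast, ← zsmul_eq_mul]
  have hx2 : x.2 ≤ n := by
    have := Finset.HasAntidiagonal.mem_antidiagonal.mp hx
    omega
  exact J.zsmul_mem (h _ hx2) _

/-- **Integral Miller basis, Sturm form.**  If the `q`-expansion coefficients `a_n(f)`,
`n ≤ k / 12`, of a level-one form of weight `k` lie in an additive subgroup `J ⊆ ℂ`, then all
coefficients of `f` lie in `J`. -/
theorem s16s_miller_aux (J : AddSubgroup ℂ) :
    ∀ (k : ℕ) (f : ModularForm 𝒮ℒ (k : ℤ)),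
      (∀ n, n ≤ k / 12 → (qExpansion 1 f).coeff n ∈ J) →
        ∀ n, (qExpansion 1 f).coeff n ∈ J := by
  intro k
  induction k using Nat.strong_induction_on with | _ k ih =>
  intro f hlow
  have hzero : f = 0 → ∀ n, (qExpansion 1 f).coeff n ∈ J := by
    rintro rfl n
    rw [FunLike.coe_zero, qExpansion_zero]
    simp
  rcases Nat.even_or_odd k with hev | hodd
  swap
  · exact hzero (levelOne_odd_weight_eq_zero (by exact_mod_cast hodd) f)
  rcases eq_or_ne k 2 with rfl | hk2
  · refine hzero ?_
    have h2 := rank_zero_iff_forall_zero.mp levelOne_weight_two_rank_zero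
      (ModularForm.mcast (by norm_num) f)
    exact (ModularForm.mcast_eq_zero_iff (by norm_num) rfl f).mp h2
  obtain ⟨B, b, hB, hb0⟩ := s16s_exists_base k hev hk2
  have ha0J : (qExpansion 1 f).coeff 0 ∈ J := hlow 0 (Nat.zero_le _)
  -- the cusp form `g = f - a₀ B`
  obtain ⟨g, hgdef⟩ : ∃ g : ModularForm 𝒮ℒ (k : ℤ), g = f - (qExpansion 1 f).coeff 0 • B :=
    ⟨_, rfl⟩
  have hgq : qExpansion 1 g =
      qExpansion 1 f - (qExpansion 1 f).coeff 0 • PowerSeries.map (Int.castRingHom ℂ) b := by
    rw [hgdef, FunLike.coe_sub, ModularForm.qExpansion_sub one_pos one_mem_strictPeriods_SL,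
      FunLike.coe_smul, ModularForm.qExpansion_smul one_pos one_mem_strictPeriods_SL, hB]
  have hgn : ∀ n, (qExpansion 1 g).coeff n =
      (qExpansion 1 f).coeff n - (b.coeff n) • (qExpansion 1 f).coeff 0 := by
    intro n
    rw [hgq, map_sub, PowerSeries.coeff_smul, PowerSeries.coeff_map, eq_intCast, smul_eq_mul,
      zsmul_eq_mul, mul_comm]
  have hg0 : (qExpansion 1 g).coeff 0 = 0 := by
    have hb1 : b.coeff 0 = 1 := by
      rw [PowerSeries.coeff_zero_eq_constantCoeff_apply, hb0]
    rw [hgn, hb1, one_zsmul]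
    exact sub_self _
  -- it suffices to treat `g`
  suffices hg : ∀ n, (qExpansion 1 g).coeff n ∈ J by
    intro n
    have h1 := hg n
    rw [hgn] at h1
    have h2 := J.add_mem h1 (J.zsmul_mem ha0J (b.coeff n))
    rwa [sub_add_cancel] at h2
  have hglow : ∀ n, n ≤ k / 12 → (qExpansion 1 g).coeff n ∈ J := by
    intro n hn
    rw [hgn]
    exact J.sub_mem (hlow n hn) (J.zsmul_mem ha0J _)
  have hfac := qExpansion_eq_qExpansion_discriminant_mul g hg0
  rw [Fermat.Agent.S24.qExpansion_discriminant_eq] at hfac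
  rcases lt_or_ge k 12 with hk12 | hk12
  · -- negative weight: the quotient vanishes
    have hneg : ((k : ℤ) - 12) < 0 := by omega
    have hh0 := levelOne_neg_weight_eq_zero hneg
      (CuspForm.discriminantEquiv (toCuspForm g hg0))
    intro n
    rw [hfac, hh0, qExpansion_zero, mul_zero]
    simp
  · -- weight `k - 12`
    have hcast : (k : ℤ) - 12 = ((k - 12 : ℕ) : ℤ) := by omega
    have hih := ih (k - 12) (by omega)
      (ModularForm.mcast hcast (CuspForm.discriminantEquiv (toCuspForm g hg0)))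
    rw [ModularForm.qExpansion_mcast] at hih
    -- `X * H = v * qExp g`
    have hXH : (PowerSeries.X : PowerSeries ℂ) * qExpansion 1
        (CuspForm.discriminantEquiv (toCuspForm g hg0)) =
        PowerSeries.map (Int.castRingHom ℂ) ModularCurve.dedekindEtaUnitInv *
          qExpansion 1 g := by
      conv_rhs => rw [hfac]
      rw [← mul_assoc, ← map_mul]
      have : ModularCurve.dedekindEtaUnitInv * (PowerSeries.X * ModularCurve.dedekindEtaUnit) =
          PowerSeries.X := by
        rw [mul_comm, mul_assoc, ModularCurve.dedekindEtaUnit_mul_inv, mul_one]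
      rw [this, PowerSeries.map_X]
    have hH : ∀ n, (qExpansion 1 (CuspForm.discriminantEquiv (toCuspForm g hg0))).coeff n ∈ J := by
      refine hih fun n hn => ?_
      have h1 := s16s_coeff_map_mul_mem J ModularCurve.dedekindEtaUnitInv
        (qExpansion 1 g) (n + 1) (fun j hj => hglow j (by omega))
      rw [← hXH, PowerSeries.coeff_succ_X_mul] at h1
      exact h1
    intro n
    rw [hfac]
    exact s16s_coeff_map_mul_mem J _ _ n fun j _ => hH j

/-- **Integral Miller basis, Sturm form** (natural weight). -/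
theorem s16s_miller {k : ℕ} (f : ModularForm 𝒮ℒ (k : ℤ)) (J : AddSubgroup ℂ)
    (h : ∀ n, n ≤ k / 12 → (qExpansion 1 f).coeff n ∈ J) :
    ∀ n, (qExpansion 1 f).coeff n ∈ J :=
  s16s_miller_aux J k f h

/-- **Integral Miller basis, Sturm form** (integer weight). -/
theorem s16s_miller_int {k : ℤ} (f : ModularForm 𝒮ℒ k) (J : AddSubgroup ℂ)
    (h : ∀ n, n ≤ k.toNat / 12 → (qExpansion 1 f).coeff n ∈ J) :
    ∀ n, (qExpansion 1 f).coeff n ∈ J := by
  rcases lt_or_ge k 0 with hk | hk
  · intro n
    rw [levelOne_neg_weight_eq_zero hk f, qExpansion_zero]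
    simp
  · have hcast : k = ((k.toNat : ℕ) : ℤ) := (Int.toNat_of_nonneg hk).symm
    have := s16s_miller (ModularForm.mcast hcast f) J
      (by rw [ModularForm.qExpansion_mcast]; exact h)
    rwa [ModularForm.qExpansion_mcast] at this

/-- Contrapositive form: a coefficient outside `J` forces one of index `≤ k / 12`. -/
theorem s16s_exists_low {k : ℤ} (f : ModularForm 𝒮ℒ k) (J : AddSubgroup ℂ)
    (h : ∃ n, (qExpansion 1 f).coeff n ∉ J) :
    ∃ n, n ≤ k.toNat / 12 ∧ (qExpansion 1 f).coeff n ∉ J := by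
  by_contra hcon
  push Not at hcon
  obtain ⟨n, hn⟩ := h
  exact hn (s16s_miller_int f J hcon n)

end

end Fermat.Agent.S16
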